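/-
P-MW row 699 (MW-FINAL), parts (2) and (3), CONDITIONAL FORM.  helper7.

Everything on the heights side which is landed is plugged in here; the four contracts which are
still open (rows 690 NORM, 696 SHIFT + WCUBE, 694 MOVE) are hypotheses, in the architect's exact
`Prop`s, quantified over all data.

* `quad_of_open`     : `NormStatement`, `ShiftStatement`, `WCubeStatement`, `MoveStatement`
                       for a datum give its `QuadStatement`.
* `abstractQuad_of`  : the same for all data.
* `abstractMW_of`    : `AbstractMWStatement` (weak MW => FG) from the same four contracts.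
* `s17_of_open`      : the frozen S17 conclusion from the four contracts, the modular datum
                       (Block E) and weak Mordell-Weil at `2` (Block A).
* `s17_of_open'`     : the same with weak Mordell-Weil unfolded into divisibility and
                       unramifiedness of division points (Kummer finiteness is landed).
-/
import Fermat.Agent.H5.MW.QuadAssembly
import Fermat.Agent.H5.MW.Assembly
import Fermat.Agent.H88.MW.Basic
import Fermat.Agent.H64.MW.HAdd
import Fermat.Agent.H35.MW.GaussGelfond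
import Fermat.Agent.H46.MW.North
import Fermat.Agent.H2.MW.NorthcottPoly
import Fermat.Agent.H79.MW.LemmaM
import Fermat.Agent.H99.MW.Bihom
import Fermat.Agent.H58.MW.CauchyBinet
import Fermat.Agent.H87.MW.CI
import Fermat.Agent.H73.MW.MinkFinal
import Fermat.Agent.H4.MW.QuadTransport
import Fermat.Agent.H15.MW.WeakInputs
import Fermat.Agent.H86.MWKummerFinal

set_option autoImplicit false

noncomputable section

namespace Fermat.Agent.H7.MW

open Fermat.Agent.H92.MW

section Datum

variable {R : Type} [CommRing R] [Algebra ℚ R] [IsDedekindDomain R] (𝒞 : MWDatum R)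

/-- (HADD), unconditional. -/
theorem hAdd_uncond : 𝒞.HAddStatement :=
  Fermat.Agent.H64.hAdd 𝒞 Fermat.Agent.H35.MWGG.gaussGelfond

/-- (NORTH), unconditional. -/
theorem north_uncond : 𝒞.NorthStatement :=
  Fermat.Agent.H46.MW.north 𝒞 Fermat.Agent.H2.northcottPoly

/-- Lemma M, unconditional. -/
theorem lemmaM_uncond : LemmaMStatement 𝒞 :=
  Fermat.Agent.H79.MW.lemmaM 𝒞 Fermat.Agent.H99.MW.bihom Fermat.Agent.H58.MW.cauchyBinet

/-- (CI) from (NORM). -/
theorem ci_of_norm (hN : NormStatement 𝒞) : 𝒞.CIStatement :=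
  Fermat.Agent.H87.MW.ci 𝒞 (Fermat.Agent.H88.MW.basic 𝒞) (lemmaM_uncond 𝒞) hN (hAdd_uncond 𝒞)

/-- (MINK) from (NORM). -/
theorem mink_of_norm (hN : NormStatement 𝒞) : 𝒞.MinkStatement :=
  Fermat.Agent.H73.MWMink.mink_of_basic 𝒞 (Fermat.Agent.H88.MW.basic 𝒞) hN (hAdd_uncond 𝒞)

/-- The quasi-quadratic Northcott height of a datum, from the four open contracts. -/
theorem quad_of_open (hN : NormStatement 𝒞) (hS : 𝒞.ShiftStatement) (hW : 𝒞.WCubeStatement)
    (hM : 𝒞.MoveStatement) : 𝒞.QuadStatement :=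
  Fermat.Agent.H5.MW.quadAssembly 𝒞 (ci_of_norm 𝒞 hN) hS hW (hAdd_uncond 𝒞) (mink_of_norm 𝒞 hN)
    (north_uncond 𝒞) hM

/-- Weak Mordell-Weil implies Mordell-Weil for a datum, from the four open contracts. -/
theorem fg_of_open (hN : NormStatement 𝒞) (hS : 𝒞.ShiftStatement) (hW : 𝒞.WCubeStatement)
    (hM : 𝒞.MoveStatement) (hweak : 𝒞.WeakStatement) : 𝒞.FGStatement :=
  Fermat.Agent.H5.MW.assembly 𝒞 (ci_of_norm 𝒞 hN) hS hW (hAdd_uncond 𝒞) (mink_of_norm 𝒞 hN)
    (north_uncond 𝒞) hM hweak

end Datum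

/-- (NORM) for all data. -/
def NormAllStatement : Prop :=
  ∀ (R : Type) [CommRing R] [Algebra ℚ R] [IsDedekindDomain R] (𝒞 : MWDatum R), NormStatement 𝒞

/-- (SHIFT) for all data. -/
def ShiftAllStatement : Prop :=
  ∀ (R : Type) [CommRing R] [Algebra ℚ R] [IsDedekindDomain R] (𝒞 : MWDatum R),
    𝒞.ShiftStatement

/-- (WCUBE) for all data. -/
def WCubeAllStatement : Prop :=
  ∀ (R : Type) [CommRing R] [Algebra ℚ R] [IsDedekindDomain R] (𝒞 : MWDatum R),
    𝒞.WCubeStatement

/-- (MOVE) for all data. -/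
def MoveAllStatement : Prop :=
  ∀ (R : Type) [CommRing R] [Algebra ℚ R] [IsDedekindDomain R] (𝒞 : MWDatum R),
    𝒞.MoveStatement

/-- **MW-FINAL (2)**, conditional form: the quasi-quadratic height for every datum. -/
theorem abstractQuad_of (hN : NormAllStatement) (hS : ShiftAllStatement)
    (hW : WCubeAllStatement) (hM : MoveAllStatement) :
    ∀ (R : Type) [CommRing R] [Algebra ℚ R] [IsDedekindDomain R] (𝒞 : MWDatum R),
      𝒞.QuadStatement :=
  fun R _ _ _ 𝒞 => quad_of_open 𝒞 (hN R 𝒞) (hS R 𝒞) (hW R 𝒞) (hM R 𝒞)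

/-- `AbstractMWStatement`, conditional form. -/
theorem abstractMW_of (hN : NormAllStatement) (hS : ShiftAllStatement)
    (hW : WCubeAllStatement) (hM : MoveAllStatement) : AbstractMWStatement :=
  fun R _ _ _ 𝒞 hweak => fg_of_open 𝒞 (hN R 𝒞) (hS R 𝒞) (hW R 𝒞) (hM R 𝒞) hweak

/-- **MW-FINAL (3)**, conditional form: the frozen S17 conclusion from the four open contracts
of the heights side, the modular datum and weak Mordell-Weil at `2`. -/
theorem s17_of_open (hN : NormAllStatement) (hS : ShiftAllStatement)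
    (hW : WCubeAllStatement) (hM : MoveAllStatement) (hD : ModularDatumStatement)
    (N : ℕ) [NeZero N] (hNp : N.Prime) (h5 : 5 ≤ N)
    (hweak : Fermat.Agent.H15.MW.WeakMWStatement N 2) :
    AddGroup.FG ↥(FixedPoints.addSubgroup ((AlgebraicClosure ℚ) ≃ₐ[ℚ] (AlgebraicClosure ℚ))
      (ModularCurve.JZero N)) :=
  Fermat.Agent.H4.MW.s17_of_inputs hD (abstractQuad_of hN hS hW hM) N hNp h5 hweak

/-- The same with weak Mordell-Weil unfolded: divisibility of `J₀(N)(ℚ̄)` by `2` and
unramifiedness of the `2`-division points (Kummer finiteness and the torsion inputs are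
landed). -/
theorem s17_of_open' (hN : NormAllStatement) (hS : ShiftAllStatement)
    (hW : WCubeAllStatement) (hM : MoveAllStatement) (hD : ModularDatumStatement)
    (N : ℕ) [NeZero N] (hNp : N.Prime) (h5 : 5 ≤ N)
    (hdiv : Fermat.Agent.H15.MW.DivisibleStatement N 2)
    (hU : Fermat.Agent.H15.MW.DivisionUnramifiedStatement N 2) :
    AddGroup.FG ↥(FixedPoints.addSubgroup ((AlgebraicClosure ℚ) ≃ₐ[ℚ] (AlgebraicClosure ℚ))
      (ModularCurve.JZero N)) :=
  s17_of_open hN hS hW hM hD N hNp h5
    (Fermat.Agent.H15.MW.weakMW_of_inputs N Nat.prime_two hdiv hU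
      Fermat.Agent.H86.MWK.kummerFiniteness)

end Fermat.Agent.H7.MW
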